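/-
S19 / S32, **the contract between the geometric layer (Čech formal group of `J₀(N)` at a place
`A | ℓ`, or any other construction of formal coordinates) and the order layer** (blueprint owner:
helper22; moonshots row "S19-cluster").  VERSION 3 (v2 + (C9) rationality of representatives, which replaces (C8); coefficients in the strictly henselian ring
`R^nr = A ∩ ℚ̄^I`, twisted equivariance): version 1 (integer coefficients, strict equivariance) is
the special case `Ψ = X`, `F` integral.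

`Jb` is an abelian group with an action `actJ` of `G_ℚ` (think `Jb = J₀(N)(ℚ̄)`), `A` a valuation
subring of `ℚ̄` over `ℓ`, `D = A.decompositionSubgroup ℚ`, `I = A.inertiaSubgroupIn ℚ`.

A `CoordSystem` consists of
* `J1`  : the kernel of reduction at `A`;
* `U`   : the subgroup of "unramified classes" (classes of divisors supported on `I`-fixed places);
* `IsCoord n z a` : "`a ∈ 𝔪_A^g` represents the level-`n` formal coordinate `T_n(z) ∈ (𝔪_A/ℓⁿA)^g`
  of `z ∈ J1`" (LEVEL-DEPENDENT algebraic representatives: the Čech coordinates are `ℓ`-adic, not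
  algebraic; for coordinates that are honest functions `T : J1 → 𝔪_A^g` put
  `IsCoord n z a ↔ ∀ i, a i - T z i ∈ ℓⁿA`),
with the axioms (C0)–(C8) below.  Nothing else is needed by the order layer.
-/
import Mathlib
import Fermat.Prelude.Def_FLTPrelim_Ramification
import Fermat.Agent.S19.Abs.Defs

set_option autoImplicit false

namespace Fermat.Agent.S19.Coord

open Fermat.Agent.S19.Abs

/-- `ℓⁿ·A` as a subset of `ℚ̄`. -/
def lpow (A : ValuationSubring Qb) (ℓ n : ℕ) : Set Qb :=
  {x | ∃ a ∈ A, x = (ℓ : Qb) ^ n * a}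

/-- `R^nr = A ∩ ℚ̄^I`: the elements of `A` fixed by the inertia group (the strict henselisation of
`ℤ_(ℓ)` inside `ℚ̄` at the place `A`). -/
def IsUnr (A : ValuationSubring Qb) (x : Qb) : Prop :=
  x ∈ A ∧ ∀ σ ∈ A.inertiaSubgroupIn ℚ, σ x = x

/-- A polynomial all of whose coefficients lie in `R^nr`. -/
def UnrCoeffs (A : ValuationSubring Qb) {ι : Type*} (P : MvPolynomial ι Qb) : Prop :=
  ∀ m, IsUnr A (P.coeff m)

/-- The contract: level-wise formal coordinates on the kernel of reduction. -/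
structure CoordSystem (ℓ : ℕ) (A : ValuationSubring Qb) (Jb : Type) [AddCommGroup Jb]
    (actJ : GQ → Jb → Jb) where
  /-- number of coordinates -/
  g : ℕ
  /-- the kernel of reduction at `A` -/
  J1 : AddSubgroup Jb
  /-- the unramified classes -/
  U : AddSubgroup Jb
  /-- `IsCoord n z a`: `a` represents `T_n(z)` -/
  IsCoord : ℕ → Jb → (Fin g → Qb) → Prop
  /-- (C0) coordinates exist only on `J1` and lie in the maximal ideal -/
  mem_J1 : ∀ {n z a}, IsCoord n z a → z ∈ J1
  nonunit : ∀ {n z a}, IsCoord n z a → ∀ i, a i ∈ A.nonunits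
  /-- (C1) existence of representatives -/
  exists_rep : ∀ {z}, z ∈ J1 → ∀ n, ∃ a, IsCoord n z a
  /-- (C2) representatives are exactly a class modulo `ℓⁿA` -/
  congr : ∀ {n z a a'}, IsCoord n z a → IsCoord n z a' → ∀ i, a i - a' i ∈ lpow A ℓ n
  of_congr : ∀ {n z a a'}, IsCoord n z a → (∀ i, a' i ∈ A.nonunits) →
    (∀ i, a i - a' i ∈ lpow A ℓ n) → IsCoord n z a'
  /-- (C3) TWISTED equivariance under the decomposition group: `T_n(σ z) = σ(Ψ_σ(T_n z))` with
  `Ψ_σ` a polynomial map over `R^nr` (strict equivariance = the case `Ψ i = X i`) -/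
  J1_stable : ∀ σ ∈ A.decompositionSubgroup ℚ, ∀ z ∈ J1, actJ σ z ∈ J1
  equivariant : ∀ σ ∈ A.decompositionSubgroup ℚ, ∀ n e : ℕ, 0 < e →
    ∃ Ψ : Fin g → MvPolynomial (Fin g) Qb, (∀ i, UnrCoeffs A (Ψ i)) ∧
      ∀ {z a}, IsCoord n z a → (∀ i, a i ^ e ∈ lpow A ℓ 1) →
        IsCoord n (actJ σ z) (fun i => σ (MvPolynomial.aeval a (Ψ i)))
  /-- strict equivariance under the inertia group -/
  equivariant_inertia : ∀ σ ∈ A.inertiaSubgroupIn ℚ, ∀ {n z a}, IsCoord n z a →
    IsCoord n (actJ σ z) (fun i => σ (a i))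
  /-- (C4) compatibility of the levels -/
  mono : ∀ {n z a}, IsCoord (n + 1) z a → IsCoord n z a
  /-- (C5) the group law is polynomial over `R^nr` modulo `ℓⁿ`, on points of ramification `≤ e` -/
  zero : ∀ n, IsCoord n 0 0
  law : ∀ n e : ℕ, 0 < e → ∃ F : Fin g → MvPolynomial (Fin g ⊕ Fin g) Qb,
    (∀ i, UnrCoeffs A (F i)) ∧
    ∀ {z z' a a'}, IsCoord n z a → IsCoord n z' a' →
      (∀ i, a i ^ e ∈ lpow A ℓ 1) → (∀ i, a' i ^ e ∈ lpow A ℓ 1) →
      IsCoord n (z + z') (fun i => MvPolynomial.aeval (Sum.elim a a') (F i))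
  /-- (C6) separation -/
  separated : ∀ {z}, z ∈ J1 → (∀ n, IsCoord n z 0) → z = 0
  /-- (C7) the reduction is inertia-invariant; unramified classes are inertia-fixed, stable
  under the decomposition group, and every class has an unramified lift -/
  inertia_sub_mem : ∀ σ ∈ A.inertiaSubgroupIn ℚ, ∀ y : Jb, actJ σ y - y ∈ J1
  U_fixed : ∀ σ ∈ A.inertiaSubgroupIn ℚ, ∀ z ∈ U, actJ σ z = z
  U_stable : ∀ σ ∈ A.decompositionSubgroup ℚ, ∀ z ∈ U, actJ σ z ∈ U
  exists_lift : ∀ y : Jb, ∃ x ∈ U, y - x ∈ J1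
  /-- (C9) RATIONALITY: `T_n(z)` has a representative fixed by the inertia-stabiliser of `z`
  ("the coordinates of a point are rational over its field of definition over `ℚ̄^I`"; geometric
  source: an `S`-invariant class is the class of an `S`-invariant divisor because the cusp `∞` is
  rational, and `κ_n` can be computed at a level inside `ℚ̄^S`) -/
  rational_stab : ∀ {z}, z ∈ J1 → ∀ n, ∃ a, IsCoord n z a ∧
    ∀ σ ∈ A.inertiaSubgroupIn ℚ, actJ σ z = z → ∀ i, σ (a i) = a i

namespace CoordSystem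

variable {ℓ : ℕ} {A : ValuationSubring Qb} {Jb : Type} [AddCommGroup Jb] {actJ : GQ → Jb → Jb}

/-- (C8) unramified classes in the kernel of reduction have coordinates in `R^nr`
(a corollary of (C9) and `U_fixed`). -/
theorem rational (C : CoordSystem ℓ A Jb actJ) {z : Jb} (hU : z ∈ C.U) (hz : z ∈ C.J1) (n : ℕ) :
    ∃ a, C.IsCoord n z a ∧ ∀ i, IsUnr A (a i) := by
  obtain ⟨a, ha, hfix⟩ := C.rational_stab hz n
  refine ⟨a, ha, fun i => ⟨?_, fun σ hσ => hfix σ hσ (C.U_fixed σ hσ z hU) i⟩⟩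
  have h := C.nonunit ha i
  exact (ValuationSubring.nonunits_le) h

end CoordSystem

/-- **Deliverable of the order layer** (`S19/Order/`, helper12), to be proved from the contract:
every finite `G_ℚ`-stable subgroup `M` of `Jb` (with open stabilisers) carries a Hopf order. -/
def OrderTarget : Prop :=
  ∀ (ℓ : ℕ) [Fact ℓ.Prime] (A : ValuationSubring Qb), A.LiesOverPrime ℓ →
    ∀ (Jb : Type) [AddCommGroup Jb] (actJ : GQ → Jb → Jb), IsGalAction actJ →
      CoordSystem ℓ A Jb actJ →
      (∀ y : Jb, ∃ E : IntermediateField ℚ Qb, FiniteDimensional ℚ E ∧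
        ∀ σ : GQ, (∀ x ∈ E, σ x = x) → actJ σ y = y) →
      ∀ (M : AddSubgroup Jb), Finite M → ∀ (hM : ∀ σ, ∀ y ∈ M, actJ σ y ∈ M),
        ∃ Hs : Subalgebra (GaloisRep.ratLocalizedAt ℓ) (M → Qb),
          IsHopfOrder ℓ (fun σ (y : M) => (⟨actJ σ y, hM σ y y.2⟩ : M)) Hs

end Fermat.Agent.S19.Coord
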