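/-
S19 / S32, contract layer: **rationality of representatives by averaging** (blueprint owner:
helper22; DAG v1, ruling R5).

The geometric layer produces level-`n` representatives `a` of the formal coordinates of a class
`z ∈ J1` which all live at ONE finite level (a number field `E`, independent of `n`): field
`exists_rep_level` of `LevelCoordSystem`.  The order layer needs representatives fixed by the
whole inertia-stabiliser of `z` (field `rational_stab` of `CoordSystem`).  The naive statement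
"invariants of `O_L/ℓⁿ` come from `O_{L₀}`" is false for wildly ramified `L/L₀`, but it is true up
to a bounded loss of precision: a level-`(n+c)` representative, averaged over its finite orbit
under the stabiliser, is a level-`n` representative (`c` larger than the `ℓ`-adic valuation of
the orbit size).  This file proves that and upgrades a `LevelCoordSystem` to a `CoordSystem`.
-/
import Mathlib
import Fermat.Agent.S19.Coord.Defs

set_option autoImplicit false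

namespace Fermat.Agent.S19.Coord

open Fermat.Agent.S19.Abs

/-! ### Elementary facts on `ℓⁿA` -/

theorem lpow_mono (A : ValuationSubring Qb) (ℓ : ℕ) {m n : ℕ} (h : n ≤ m) {x : Qb}
    (hx : x ∈ lpow A ℓ m) : x ∈ lpow A ℓ n := by
  obtain ⟨a, ha, rfl⟩ := hx
  obtain ⟨k, rfl⟩ := Nat.exists_eq_add_of_le h
  refine ⟨(ℓ : Qb) ^ k * a, mul_mem (pow_mem (natCast_mem A ℓ) k) ha, ?_⟩
  rw [pow_add]; ring

theorem lpow_add_mem (A : ValuationSubring Qb) (ℓ n : ℕ) {x y : Qb}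
    (hx : x ∈ lpow A ℓ n) (hy : y ∈ lpow A ℓ n) : x + y ∈ lpow A ℓ n := by
  obtain ⟨a, ha, rfl⟩ := hx
  obtain ⟨b, hb, rfl⟩ := hy
  exact ⟨a + b, add_mem ha hb, by ring⟩

theorem lpow_neg_mem (A : ValuationSubring Qb) (ℓ n : ℕ) {x : Qb}
    (hx : x ∈ lpow A ℓ n) : -x ∈ lpow A ℓ n := by
  obtain ⟨a, ha, rfl⟩ := hx
  exact ⟨-a, neg_mem ha, by ring⟩

theorem lpow_zero_mem (A : ValuationSubring Qb) (ℓ n : ℕ) : (0 : Qb) ∈ lpow A ℓ n :=
  ⟨0, A.zero_mem, by ring⟩

theorem lpow_sum_mem (A : ValuationSubring Qb) (ℓ n : ℕ) {ι : Type*} (s : Finset ι)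
    (f : ι → Qb) (h : ∀ i ∈ s, f i ∈ lpow A ℓ n) : ∑ i ∈ s, f i ∈ lpow A ℓ n := by
  classical
  induction s using Finset.induction_on with
  | empty => simpa using lpow_zero_mem A ℓ n
  | insert i s hi ih =>
    rw [Finset.sum_insert hi]
    exact lpow_add_mem A ℓ n (h i (Finset.mem_insert_self i s))
      (ih fun j hj => h j (Finset.mem_insert_of_mem hj))

/-- elements of `ℓ^(n+1) A` are non-units of `A` (if `ℓ` is a non-unit). -/
theorem lpow_succ_nonunit (A : ValuationSubring Qb) (ℓ n : ℕ) (hA : A.LiesOverPrime ℓ) {x : Qb}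
    (hx : x ∈ lpow A ℓ (n + 1)) : x ∈ A.nonunits := by
  obtain ⟨a, ha, rfl⟩ := hx
  have hℓ : A.valuation (ℓ : Qb) < 1 := A.mem_nonunits_iff.1 hA
  have hℓ' : A.valuation (ℓ : Qb) ≤ 1 := hℓ.le
  have ha' : A.valuation a ≤ 1 := (A.valuation_le_one_iff a).2 ha
  rw [A.mem_nonunits_iff]
  calc A.valuation ((ℓ : Qb) ^ (n + 1) * a)
      = A.valuation (ℓ : Qb) ^ n * A.valuation (ℓ : Qb) * A.valuation a := by
        rw [map_mul, map_pow, pow_succ]
    _ ≤ 1 * A.valuation (ℓ : Qb) * 1 := by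
        gcongr
        exact pow_le_one' hℓ' n
    _ < 1 := by simpa using hℓ

theorem nonunits_add (A : ValuationSubring Qb) {x y : Qb} (hx : x ∈ A.nonunits)
    (hy : y ∈ A.nonunits) : x + y ∈ A.nonunits := by
  exact A.nonunits.add_mem hx hy

/-- a natural number prime to `ℓ` is a unit of `A`: division by it preserves `A`. -/
theorem div_natCast_mem (A : ValuationSubring Qb) {ℓ : ℕ} (hA : A.LiesOverPrime ℓ) {m : ℕ}
    (hm : Nat.Coprime m ℓ) {a : Qb} (ha : a ∈ A) : a / (m : Qb) ∈ A := by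
  have hval : A.valuation (m : Qb) = 1 := by
    have h1 : A.valuation (m : Qb) ≤ 1 := (A.valuation_le_one_iff _).2 (natCast_mem A m)
    refine le_antisymm h1 ?_
    by_contra hlt
    rw [not_le] at hlt
    -- `u m + w ℓ = 1` in `ℤ`
    have hgcd : IsCoprime (m : ℤ) (ℓ : ℤ) := Nat.isCoprime_iff_coprime.2 hm
    obtain ⟨u, w, huw⟩ := hgcd
    have huw' : (u : Qb) * (m : Qb) + (w : Qb) * (ℓ : Qb) = 1 := by exact_mod_cast huw
    have hu : A.valuation (u : Qb) ≤ 1 := (A.valuation_le_one_iff _).2 (intCast_mem A u)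
    have hw : A.valuation (w : Qb) ≤ 1 := (A.valuation_le_one_iff _).2 (intCast_mem A w)
    have hℓ : A.valuation (ℓ : Qb) < 1 := A.mem_nonunits_iff.1 hA
    have h1' : A.valuation ((u : Qb) * (m : Qb)) < 1 := by
      rw [map_mul]
      calc A.valuation (u : Qb) * A.valuation (m : Qb) ≤ 1 * A.valuation (m : Qb) := by gcongr
        _ < 1 := by simpa using hlt
    have h2' : A.valuation ((w : Qb) * (ℓ : Qb)) < 1 := by
      rw [map_mul]
      calc A.valuation (w : Qb) * A.valuation (ℓ : Qb) ≤ 1 * A.valuation (ℓ : Qb) := by gcongr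
        _ < 1 := by simpa using hℓ
    have : A.valuation (1 : Qb) < 1 := by
      rw [← huw']
      exact lt_of_le_of_lt (A.valuation.map_add _ _) (max_lt h1' h2')
    simp at this
  rw [← A.valuation_le_one_iff, map_div₀, hval, div_one]
  exact (A.valuation_le_one_iff a).2 ha

/-! ### The averaging lemma -/

/-- **Averaging.**  Let `S` be a group of automorphisms, `x ∈ ℚ̄` with finite `S`-orbit of size
`< ℓ^c`, and `σ x ≡ x mod ℓ^(n+c) A` for all `σ ∈ S`.  Then the orbit average `x₀` is `S`-fixed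
and `x₀ ≡ x mod ℓ^(n+1) A`. -/
theorem exists_fixed_approx (A : ValuationSubring Qb) {ℓ : ℕ} (hℓ : ℓ.Prime)
    (hA : A.LiesOverPrime ℓ) (S : Subgroup GQ) (x : Qb) (n c : ℕ)
    (hfin : {y : Qb | ∃ σ ∈ S, y = σ x}.Finite)
    (hcard : hfin.toFinset.card < ℓ ^ c)
    (hcong : ∀ σ ∈ S, σ x - x ∈ lpow A ℓ (n + c)) :
    ∃ x₀ : Qb, (∀ σ ∈ S, σ x₀ = x₀) ∧ x₀ - x ∈ lpow A ℓ (n + 1) := by
  classical
  set O : Finset Qb := hfin.toFinset with hO
  have hmemO : ∀ y, y ∈ O ↔ ∃ σ ∈ S, y = σ x := fun y => by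
    rw [hO, Set.Finite.mem_toFinset]; rfl
  have hxO : x ∈ O := (hmemO x).2 ⟨1, S.one_mem, by simp⟩
  have hcard_pos : 0 < O.card := Finset.card_pos.2 ⟨x, hxO⟩
  -- `|O| = ℓ^v * m'`
  obtain ⟨v, m', hm', hOm⟩ : ∃ v m' : ℕ, ¬ ℓ ∣ m' ∧ O.card = ℓ ^ v * m' :=
    Nat.exists_eq_pow_mul_and_not_dvd hcard_pos.ne' ℓ hℓ.ne_one
  have hm'pos : 0 < m' := by
    rcases Nat.eq_zero_or_pos m' with h | h
    · exact absurd (h ▸ dvd_zero ℓ) hm'
    · exact h
  have hvc : v < c := by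
    have h1 : ℓ ^ v ≤ O.card := by
      rw [hOm]; exact Nat.le_mul_of_pos_right _ hm'pos
    have h2 : ℓ ^ v < ℓ ^ c := lt_of_le_of_lt h1 hcard
    exact (Nat.pow_lt_pow_iff_right hℓ.one_lt).1 h2
  have hcop : Nat.Coprime m' ℓ := (Nat.Coprime.symm ((Nat.Prime.coprime_iff_not_dvd hℓ).2 hm'))
  have hℓ0 : (ℓ : Qb) ≠ 0 := by exact_mod_cast hℓ.ne_zero
  have hm'0 : (m' : Qb) ≠ 0 := by exact_mod_cast hm'pos.ne'
  have hcard0 : (O.card : Qb) ≠ 0 := by exact_mod_cast hcard_pos.ne'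
  refine ⟨(∑ y ∈ O, y) / (O.card : Qb), ?_, ?_⟩
  · -- invariance
    intro σ hσ
    rw [map_div₀, map_natCast, map_sum]
    congr 1
    refine Finset.sum_nbij (fun y => σ y) ?_ ?_ ?_ (fun _ _ => rfl)
    · intro y hy
      obtain ⟨τ, hτ, rfl⟩ := (hmemO y).1 hy
      exact (hmemO _).2 ⟨σ * τ, S.mul_mem hσ hτ, by simp⟩
    · intro y _ y' _ h
      exact σ.injective h
    · intro y hy
      obtain ⟨τ, hτ, rfl⟩ := (hmemO y).1 (Finset.mem_coe.1 hy)
      refine ⟨(σ⁻¹ * τ) x, Finset.mem_coe.2 ((hmemO _).2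
        ⟨σ⁻¹ * τ, S.mul_mem (S.inv_mem hσ) hτ, rfl⟩), ?_⟩
      simp
  · -- approximation
    have hsum : (∑ y ∈ O, y) / (O.card : Qb) - x = (∑ y ∈ O, (y - x)) / (O.card : Qb) := by
      rw [Finset.sum_sub_distrib, Finset.sum_const, nsmul_eq_mul]
      field_simp
    have hS : ∑ y ∈ O, (y - x) ∈ lpow A ℓ (n + c) := by
      refine lpow_sum_mem A ℓ (n + c) O _ ?_
      intro y hy
      obtain ⟨τ, hτ, rfl⟩ := (hmemO y).1 hy
      exact hcong τ hτ
    obtain ⟨a, ha, hSa⟩ := hS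
    obtain ⟨k, hk⟩ : ∃ k, c = v + 1 + k := Nat.exists_eq_add_of_le hvc
    rw [hsum, hSa]
    refine ⟨(ℓ : Qb) ^ k * (a / (m' : Qb)),
      mul_mem (pow_mem (natCast_mem A ℓ) k) (div_natCast_mem A hA hcop ha), ?_⟩
    have hOm' : (O.card : Qb) = (ℓ : Qb) ^ v * (m' : Qb) := by
      rw [hOm]; push_cast; ring
    rw [hOm', hk]
    field_simp
    ring

/-! ### `LevelCoordSystem` -/

/-- The contract as the geometric layer proves it: `CoordSystem` with (C1)+(C9) replaced by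
(C1') "all level-`n` representatives of a class live at one finite level". -/
structure LevelCoordSystem (ℓ : ℕ) (A : ValuationSubring Qb) (Jb : Type) [AddCommGroup Jb]
    (actJ : GQ → Jb → Jb) where
  g : ℕ
  J1 : AddSubgroup Jb
  U : AddSubgroup Jb
  IsCoord : ℕ → Jb → (Fin g → Qb) → Prop
  mem_J1 : ∀ {n z a}, IsCoord n z a → z ∈ J1
  nonunit : ∀ {n z a}, IsCoord n z a → ∀ i, a i ∈ A.nonunits
  /-- (C1') representatives of all levels exist at ONE finite level `E` (depending on `z`) -/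
  exists_rep_level : ∀ {z}, z ∈ J1 → ∃ E : IntermediateField ℚ Qb, FiniteDimensional ℚ E ∧
    ∀ n, ∃ a, IsCoord n z a ∧
      ∀ σ ∈ A.inertiaSubgroupIn ℚ, (∀ x ∈ E, σ x = x) → ∀ i, σ (a i) = a i
  congr : ∀ {n z a a'}, IsCoord n z a → IsCoord n z a' → ∀ i, a i - a' i ∈ lpow A ℓ n
  of_congr : ∀ {n z a a'}, IsCoord n z a → (∀ i, a' i ∈ A.nonunits) →
    (∀ i, a i - a' i ∈ lpow A ℓ n) → IsCoord n z a'
  J1_stable : ∀ σ ∈ A.decompositionSubgroup ℚ, ∀ z ∈ J1, actJ σ z ∈ J1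
  equivariant : ∀ σ ∈ A.decompositionSubgroup ℚ, ∀ n e : ℕ, 0 < e →
    ∃ Ψ : Fin g → MvPolynomial (Fin g) Qb, (∀ i, UnrCoeffs A (Ψ i)) ∧
      ∀ {z a}, IsCoord n z a → (∀ i, a i ^ e ∈ lpow A ℓ 1) →
        IsCoord n (actJ σ z) (fun i => σ (MvPolynomial.aeval a (Ψ i)))
  equivariant_inertia : ∀ σ ∈ A.inertiaSubgroupIn ℚ, ∀ {n z a}, IsCoord n z a →
    IsCoord n (actJ σ z) (fun i => σ (a i))
  mono : ∀ {n z a}, IsCoord (n + 1) z a → IsCoord n z a
  zero : ∀ n, IsCoord n 0 0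
  law : ∀ n e : ℕ, 0 < e → ∃ F : Fin g → MvPolynomial (Fin g ⊕ Fin g) Qb,
    (∀ i, UnrCoeffs A (F i)) ∧
    ∀ {z z' a a'}, IsCoord n z a → IsCoord n z' a' →
      (∀ i, a i ^ e ∈ lpow A ℓ 1) → (∀ i, a' i ^ e ∈ lpow A ℓ 1) →
      IsCoord n (z + z') (fun i => MvPolynomial.aeval (Sum.elim a a') (F i))
  separated : ∀ {z}, z ∈ J1 → (∀ n, IsCoord n z 0) → z = 0
  inertia_sub_mem : ∀ σ ∈ A.inertiaSubgroupIn ℚ, ∀ y : Jb, actJ σ y - y ∈ J1
  U_fixed : ∀ σ ∈ A.inertiaSubgroupIn ℚ, ∀ z ∈ U, actJ σ z = z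
  U_stable : ∀ σ ∈ A.decompositionSubgroup ℚ, ∀ z ∈ U, actJ σ z ∈ U
  exists_lift : ∀ y : Jb, ∃ x ∈ U, y - x ∈ J1

namespace LevelCoordSystem

variable {ℓ : ℕ} {A : ValuationSubring Qb} {Jb : Type} [AddCommGroup Jb] {actJ : GQ → Jb → Jb}

theorem mono_add (C : LevelCoordSystem ℓ A Jb actJ) {n : ℕ} (c : ℕ) {z : Jb} {a : Fin C.g → Qb}
    (h : C.IsCoord (n + c) z a) : C.IsCoord n z a := by
  induction c with
  | zero => simpa using h
  | succ c ih => exact ih (C.mono (by simpa [Nat.add_assoc] using h))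

/-- the inertia-stabiliser of a class, as a subgroup of `G_ℚ`. -/
def stab (A : ValuationSubring Qb) (hact : IsGalAction actJ) (z : Jb) : Subgroup GQ where
  carrier := {σ | σ ∈ A.inertiaSubgroupIn ℚ ∧ actJ σ z = z}
  one_mem' := ⟨Subgroup.one_mem _, hact.one z⟩
  mul_mem' := by
    rintro σ τ ⟨hσ, hσz⟩ ⟨hτ, hτz⟩
    exact ⟨Subgroup.mul_mem _ hσ hτ, by rw [hact.mul, hτz, hσz]⟩
  inv_mem' := by
    rintro σ ⟨hσ, hσz⟩
    refine ⟨Subgroup.inv_mem _ hσ, ?_⟩
    calc actJ σ⁻¹ z = actJ σ⁻¹ (actJ σ z) := by rw [hσz]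
      _ = actJ (σ⁻¹ * σ) z := (hact.mul _ _ _).symm
      _ = z := by rw [inv_mul_cancel, hact.one]

/-- (C9) from (C1'): representatives fixed by the whole inertia-stabiliser. -/
theorem rational_stab (C : LevelCoordSystem ℓ A Jb actJ) (hℓ : ℓ.Prime) (hA : A.LiesOverPrime ℓ)
    (hact : IsGalAction actJ) {z : Jb} (hz : z ∈ C.J1) (n : ℕ) :
    ∃ a, C.IsCoord n z a ∧
      ∀ σ ∈ A.inertiaSubgroupIn ℚ, actJ σ z = z → ∀ i, σ (a i) = a i := by
  classical
  obtain ⟨E, hE, hrep⟩ := C.exists_rep_level hz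
  set c : ℕ := Module.finrank ℚ E with hc
  obtain ⟨a, ha, hafix⟩ := hrep (n + c)
  set S : Subgroup GQ := stab A hact z with hS
  -- the orbit of each coordinate is finite of size `≤ [E:ℚ]`
  have horb : ∀ i, ∃ hfin : {y : Qb | ∃ σ ∈ S, y = σ (a i)}.Finite,
      hfin.toFinset.card < ℓ ^ c := by
    intro i
    -- a function on the embeddings of `E` whose range contains the orbit
    let f : (E →ₐ[ℚ] Qb) → Qb := fun ρ =>
      if h : ∃ σ ∈ S, ∀ x : E, σ (x : Qb) = ρ x then (Classical.choose h) (a i) else a i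
    have hsub : {y : Qb | ∃ σ ∈ S, y = σ (a i)} ⊆ Set.range f := by
      rintro y ⟨σ, hσ, rfl⟩
      let ρ : E →ₐ[ℚ] Qb := (σ : Qb →ₐ[ℚ] Qb).comp E.val
      have h : ∃ σ' ∈ S, ∀ x : E, σ' (x : Qb) = ρ x := ⟨σ, hσ, fun x => rfl⟩
      refine ⟨ρ, ?_⟩
      have hf : f ρ = (Classical.choose h) (a i) := by
        simp only [f]; rw [dif_pos h]
      rw [hf]
      obtain ⟨hσ'S, hσ'E⟩ := Classical.choose_spec h
      set σ' := Classical.choose h
      -- `σ'⁻¹ σ` is in the inertia group, fixes `E`, hence fixes `a i`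
      have hfix : (σ'⁻¹ * σ) (a i) = a i := by
        refine hafix (σ'⁻¹ * σ) (Subgroup.mul_mem _ (Subgroup.inv_mem _ hσ'S.1) hσ.1) ?_ i
        intro x hx
        have h1 : σ' x = σ x := hσ'E ⟨x, hx⟩
        change σ'⁻¹ (σ x) = x
        rw [← h1]
        exact σ'.symm_apply_apply x
      have : σ' ((σ'⁻¹ * σ) (a i)) = σ (a i) := by
        change σ' (σ'⁻¹ (σ (a i))) = σ (a i)
        exact σ'.apply_symm_apply _
      rw [← this, hfix]
    have hfin : {y : Qb | ∃ σ ∈ S, y = σ (a i)}.Finite := (Set.finite_range f).subset hsub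
    refine ⟨hfin, ?_⟩
    have h1 : hfin.toFinset.card ≤ Fintype.card (E →ₐ[ℚ] Qb) := by
      have : hfin.toFinset ⊆ Finset.image f Finset.univ := by
        intro y hy
        rw [Set.Finite.mem_toFinset] at hy
        obtain ⟨ρ, rfl⟩ := hsub hy
        exact Finset.mem_image_of_mem f (Finset.mem_univ ρ)
      exact (Finset.card_le_card this).trans Finset.card_image_le
    have h2 : Fintype.card (E →ₐ[ℚ] Qb) = c := by
      rw [hc]; exact AlgHom.card ℚ E Qb
    rw [h2] at h1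
    exact lt_of_le_of_lt h1 (Nat.lt_pow_self hℓ.one_lt)
  -- congruence along the stabiliser
  have hcong : ∀ i, ∀ σ ∈ S, σ (a i) - a i ∈ lpow A ℓ (n + c) := by
    intro i σ hσ
    have h1 := C.equivariant_inertia σ hσ.1 ha
    rw [hσ.2] at h1
    exact C.congr h1 ha i
  choose hfin hcard using horb
  have hex : ∀ i, ∃ x₀ : Qb, (∀ σ ∈ S, σ x₀ = x₀) ∧ x₀ - a i ∈ lpow A ℓ (n + 1) := fun i =>
    exists_fixed_approx A hℓ hA S (a i) n c (hfin i) (hcard i) (hcong i)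
  choose a₀ ha₀fix ha₀ using hex
  refine ⟨a₀, ?_, fun σ hσ hσz i => ha₀fix i σ ⟨hσ, hσz⟩⟩
  refine C.of_congr (C.mono_add c ha) (fun i => ?_) (fun i => ?_)
  · have : a₀ i = a i + (a₀ i - a i) := by ring
    rw [this]
    exact nonunits_add A (C.nonunit ha i) (lpow_succ_nonunit A ℓ n hA (ha₀ i))
  · have h := lpow_neg_mem A ℓ (n + 1) (ha₀ i)
    rw [neg_sub] at h
    exact lpow_mono A ℓ (Nat.le_succ n) h

/-- **The upgrade**: a `LevelCoordSystem` is a `CoordSystem`. -/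
def toCoordSystem (C : LevelCoordSystem ℓ A Jb actJ) (hℓ : ℓ.Prime) (hA : A.LiesOverPrime ℓ)
    (hact : IsGalAction actJ) : CoordSystem ℓ A Jb actJ where
  g := C.g
  J1 := C.J1
  U := C.U
  IsCoord := C.IsCoord
  mem_J1 := C.mem_J1
  nonunit := C.nonunit
  exists_rep := fun hz n => by
    obtain ⟨a, ha, _⟩ := C.rational_stab hℓ hA hact hz n
    exact ⟨a, ha⟩
  congr := C.congr
  of_congr := C.of_congr
  J1_stable := C.J1_stable
  equivariant := C.equivariant
  equivariant_inertia := C.equivariant_inertia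
  mono := C.mono
  zero := C.zero
  law := C.law
  separated := C.separated
  inertia_sub_mem := C.inertia_sub_mem
  U_fixed := C.U_fixed
  U_stable := C.U_stable
  exists_lift := C.exists_lift
  rational_stab := fun hz n => C.rational_stab hℓ hA hact hz n

end LevelCoordSystem

end Fermat.Agent.S19.Coord
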