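/-
S19 / Čech-units route, leaf [WIRE] (helper3; DAG v1 of helper22), **part A: assembly over all
levels.**

Input (`LevelReps`): an index type `Lv` of levels with a directed relation `le`, and relations
`R L n z a` ("`a ∈ (𝔪_A ∩ O_L)^g` represents the level-`n` formal coordinates of the class `z`,
computed at the level `L`"; `n ≥ 1`; in the geometric instance this is
`Cech.CoordOfLines.RepQb` at the situation `(L, n)`) with the properties proved level by level in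
`Cech/CoordOfLines.lean` and `Cech/WireLaw.lean`.

Output (`LevelReps.toLevelCoordSystem`): the contract `Coord.LevelCoordSystem` with
`IsCoord n z a := z ∈ J1 ∧ a ∈ 𝔪_A^g ∧ (0 < n → ∃ L a', R L n z a' ∧ a ≡ a' mod ℓⁿ A)`.
The separation (C6) and the fields (C7), `J1_stable` are hypotheses (supplied by `SepWire` and
`Geo/FixedLift`).
-/
import Fermat.Agent.S19.Coord.Avg
import Fermat.Agent.S19.Order.UnrPoly

set_option autoImplicit false

namespace Fermat.Agent.S19.Coord.OfLevels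

open Fermat.Agent.S19.Abs Fermat.Agent.S19.Coord Fermat.Agent.S19.Order

/-- Level-wise representatives of the formal coordinates. -/
structure LevelReps (ℓ : ℕ) (A : ValuationSubring Qb) (Jb : Type) [AddCommGroup Jb]
    (actJ : GQ → Jb → Jb) where
  /-- number of coordinates -/
  g : ℕ
  /-- the kernel of reduction -/
  J1 : AddSubgroup Jb
  /-- the levels -/
  Lv : Type
  le : Lv → Lv → Prop
  /-- `R L n z a`: `a` represents `T_n(z)` at the level `L` -/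
  R : Lv → ℕ → Jb → (Fin g → Qb) → Prop
  directed : ∀ L L', ∃ L'', le L L'' ∧ le L' L''
  mem_J1 : ∀ {L n z a}, R L n z a → z ∈ J1
  nonunit : ∀ {L n z a}, R L n z a → ∀ i, a i ∈ A.nonunits
  /-- a class has representatives of all precisions at ONE level -/
  exists_rep : ∀ {z}, z ∈ J1 → ∃ L, ∀ n, 0 < n → ∃ a, R L n z a
  /-- a level is generated over a number field by elements fixed by inertia -/
  fixed : ∀ L, ∃ E : IntermediateField ℚ Qb, FiniteDimensional ℚ E ∧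
    ∀ {n z a}, R L n z a → ∀ σ ∈ A.inertiaSubgroupIn ℚ, (∀ x ∈ E, σ x = x) → ∀ i, σ (a i) = a i
  unique : ∀ {L n z a a'}, R L n z a → R L n z a' → ∀ i, a i - a' i ∈ lpow A ℓ n
  lift : ∀ {L L' n z a}, le L L' → R L n z a → R L' n z a
  mono : ∀ {L n z a}, 0 < n → R L (n + 1) z a → R L n z a
  zero : ∀ n, 0 < n → ∃ L, R L n 0 0
  law : ∀ n e : ℕ, 0 < n → 0 < e → ∃ F : Fin g → MvPolynomial (Fin g ⊕ Fin g) Qb,
    (∀ i, UnrCoeffs A (F i)) ∧
    ∀ {L z z' a a'}, R L n z a → R L n z' a' →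
      (∀ i, a i ^ e ∈ lpow A ℓ 1) → (∀ i, a' i ^ e ∈ lpow A ℓ 1) →
      R L n (z + z') (fun i => MvPolynomial.aeval (Sum.elim a a') (F i))
  twist : ∀ σ ∈ A.decompositionSubgroup ℚ, ∀ n e : ℕ, 0 < n → 0 < e →
    ∃ Ψ : Fin g → MvPolynomial (Fin g) Qb, (∀ i, UnrCoeffs A (Ψ i)) ∧
      ∀ {L z a}, R L n z a → (∀ i, a i ^ e ∈ lpow A ℓ 1) →
        ∃ L', R L' n (actJ σ z) (fun i => σ (MvPolynomial.aeval a (Ψ i)))
  inertia : ∀ σ ∈ A.inertiaSubgroupIn ℚ, ∀ {L n z a}, R L n z a →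
    ∃ L', R L' n (actJ σ z) (fun i => σ (a i))

/-! ### elementary facts -/

section Basics

variable {ℓ : ℕ} {A : ValuationSubring Qb}

theorem mem_inertia_le {σ : GQ} (hσ : σ ∈ A.inertiaSubgroupIn ℚ) :
    σ ∈ A.decompositionSubgroup ℚ := by
  unfold ValuationSubring.inertiaSubgroupIn at hσ
  obtain ⟨τ, -, rfl⟩ := hσ
  exact τ.2

theorem inv_mem_decomposition {σ : GQ} (hσ : σ ∈ A.decompositionSubgroup ℚ) :
    σ⁻¹ ∈ A.decompositionSubgroup ℚ := Subgroup.inv_mem _ hσ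

theorem apply_mem_nonunits {σ : GQ} (hσ : σ ∈ A.decompositionSubgroup ℚ) {x : Qb}
    (hx : x ∈ A.nonunits) : σ x ∈ A.nonunits := by
  have hxA : x ∈ A := ValuationSubring.nonunits_le hx
  have hσx : σ x ∈ A := UnrPoly.apply_mem_of_mem_decomposition hσ hxA
  rw [A.mem_nonunits_iff] at hx ⊢
  by_contra hcon
  rw [not_lt] at hcon
  have h1 : A.valuation (σ x) = 1 := le_antisymm ((A.valuation_le_one_iff _).2 hσx) hcon
  have h0 : σ x ≠ 0 := by
    intro h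
    rw [h, map_zero] at h1
    exact zero_ne_one h1
  have h2 : (σ x)⁻¹ ∈ A := by
    rw [← A.valuation_le_one_iff, map_inv₀, h1, inv_one]
  have h3 : σ⁻¹ ((σ x)⁻¹) ∈ A :=
    UnrPoly.apply_mem_of_mem_decomposition (inv_mem_decomposition hσ) h2
  have h4 : σ⁻¹ ((σ x)⁻¹) = x⁻¹ := by
    rw [map_inv₀]
    congr 1
    change (σ⁻¹ * σ) x = x
    rw [inv_mul_cancel]; rfl
  rw [h4] at h3
  have h5 : A.valuation x⁻¹ ≤ 1 := (A.valuation_le_one_iff _).2 h3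
  have hx0 : x ≠ 0 := by
    intro h
    exact h0 (by rw [h, map_zero])
  rw [map_inv₀] at h5
  have hvx : A.valuation x ≠ 0 := (A.valuation.ne_zero_iff).2 hx0
  have h6 : 1 ≤ A.valuation x := (inv_le_one₀ (zero_lt_iff.2 hvx)).1 h5
  exact absurd hx (not_lt.2 h6)

theorem apply_mem_lpow {σ : GQ} (hσ : σ ∈ A.decompositionSubgroup ℚ) {n : ℕ} {x : Qb}
    (hx : x ∈ lpow A ℓ n) : σ x ∈ lpow A ℓ n := by
  obtain ⟨a, ha, rfl⟩ := hx
  exact ⟨σ a, UnrPoly.apply_mem_of_mem_decomposition hσ ha, by simp⟩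

theorem zero_mem_nonunits : (0 : Qb) ∈ A.nonunits := by
  rw [A.mem_nonunits_iff, map_zero]; exact zero_lt_one

theorem sub_mem_lpow_zero {x y : Qb} (hx : x ∈ A) (hy : y ∈ A) : x - y ∈ lpow A ℓ 0 :=
  ⟨x - y, sub_mem hx hy, by simp⟩

/-- the ramification bound passes to congruent representatives -/
theorem pow_mem_lpow_of_congr {n e : ℕ} (hn : 0 < n) {a b : Qb} (ha : a ∈ A) (hb : b ∈ A)
    (hab : a - b ∈ lpow A ℓ n) (hae : a ^ e ∈ lpow A ℓ 1) : b ^ e ∈ lpow A ℓ 1 := by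
  have hab1 : a - b ∈ lpow A ℓ 1 := UnrPoly.lpow_mono (Nat.succ_le_of_lt hn) hab
  obtain ⟨c, hc, hc'⟩ := hab1
  have hsum : (∑ i ∈ Finset.range e, b ^ i * a ^ (e - 1 - i)) ∈ A :=
    A.toSubring.sum_mem fun i _ => A.mul_mem _ _ (pow_mem hb i) (pow_mem ha _)
  have hgeom := (Commute.all b a).geom_sum₂_mul e
  have e1 : b ^ e = a ^ e - (∑ i ∈ Finset.range e, b ^ i * a ^ (e - 1 - i)) * (a - b) := by
    linear_combination -hgeom
  rw [e1]
  refine UnrPoly.sub_mem_lpow hae ?_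
  rw [hc']
  refine ⟨(∑ i ∈ Finset.range e, b ^ i * a ^ (e - 1 - i)) * c, A.mul_mem _ _ hsum hc, by ring⟩

/-- a sum of a non-unit and an element of `ℓⁿ A`, `n ≥ 1`, is a non-unit -/
theorem nonunit_of_congr (hA : A.LiesOverPrime ℓ) {n : ℕ} (hn : 0 < n) {x y : Qb}
    (hy : y ∈ A.nonunits) (hxy : x - y ∈ lpow A ℓ n) : x ∈ A.nonunits := by
  obtain ⟨m, rfl⟩ : ∃ m, n = m + 1 := ⟨n - 1, by omega⟩
  have h1 := lpow_succ_nonunit A ℓ m hA hxy
  have := nonunits_add A h1 hy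
  rwa [sub_add_cancel] at this

end Basics

/-! ### the coordinate system -/

namespace LevelReps

variable {ℓ : ℕ} {A : ValuationSubring Qb} {Jb : Type} [AddCommGroup Jb] {actJ : GQ → Jb → Jb}

/-- the coordinate predicate of the contract -/
def IsCoord (X : LevelReps ℓ A Jb actJ) (n : ℕ) (z : Jb) (a : Fin X.g → Qb) : Prop :=
  z ∈ X.J1 ∧ (∀ i, a i ∈ A.nonunits) ∧
    (0 < n → ∃ L a', X.R L n z a' ∧ ∀ i, a i - a' i ∈ lpow A ℓ n)

variable (X : LevelReps ℓ A Jb actJ)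

theorem isCoord_of_R {L : X.Lv} {n : ℕ} {z : Jb} {a : Fin X.g → Qb} (h : X.R L n z a) :
    X.IsCoord n z a :=
  ⟨X.mem_J1 h, X.nonunit h, fun _ => ⟨L, a, h, fun i => by
    rw [sub_self]; exact UnrPoly.zero_mem_lpow _⟩⟩

theorem mem_A {n : ℕ} {z : Jb} {a : Fin X.g → Qb} (h : X.IsCoord n z a) (i : Fin X.g) :
    a i ∈ A := ValuationSubring.nonunits_le (h.2.1 i)

theorem R_mem_A {L : X.Lv} {n : ℕ} {z : Jb} {a : Fin X.g → Qb} (h : X.R L n z a) (i : Fin X.g) :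
    a i ∈ A := ValuationSubring.nonunits_le (X.nonunit h i)

/-- two witnesses can be moved to a common level -/
theorem exists_common {n : ℕ} {z z' : Jb} {L L' : X.Lv} {b b' : Fin X.g → Qb}
    (h : X.R L n z b) (h' : X.R L' n z' b') : ∃ L'', X.R L'' n z b ∧ X.R L'' n z' b' := by
  obtain ⟨L'', h1, h2⟩ := X.directed L L'
  exact ⟨L'', X.lift h1 h, X.lift h2 h'⟩

theorem isCoord_congr {n : ℕ} {z : Jb} {a a' : Fin X.g → Qb} (h : X.IsCoord n z a)
    (h' : X.IsCoord n z a') (i : Fin X.g) : a i - a' i ∈ lpow A ℓ n := by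
  rcases Nat.eq_zero_or_pos n with hn | hn
  · subst hn
    exact sub_mem_lpow_zero (X.mem_A h i) (X.mem_A h' i)
  obtain ⟨L, b, hb, hab⟩ := h.2.2 hn
  obtain ⟨L', b', hb', hab'⟩ := h'.2.2 hn
  obtain ⟨L'', h1, h2⟩ := X.exists_common hb hb'
  have h3 := X.unique h1 h2 i
  have e : a i - a' i = (a i - b i) + (b i - b' i) - (a' i - b' i) := by ring
  rw [e]
  exact UnrPoly.sub_mem_lpow (UnrPoly.add_mem_lpow (hab i) h3) (hab' i)

theorem isCoord_of_congr {n : ℕ} {z : Jb} {a a' : Fin X.g → Qb} (h : X.IsCoord n z a)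
    (hn' : ∀ i, a' i ∈ A.nonunits) (hc : ∀ i, a i - a' i ∈ lpow A ℓ n) : X.IsCoord n z a' := by
  refine ⟨h.1, hn', fun hn => ?_⟩
  obtain ⟨L, b, hb, hab⟩ := h.2.2 hn
  refine ⟨L, b, hb, fun i => ?_⟩
  have e : a' i - b i = (a i - b i) - (a i - a' i) := by ring
  rw [e]
  exact UnrPoly.sub_mem_lpow (hab i) (hc i)

theorem isCoord_mono {n : ℕ} {z : Jb} {a : Fin X.g → Qb} (h : X.IsCoord (n + 1) z a) :
    X.IsCoord n z a := by
  refine ⟨h.1, h.2.1, fun hn => ?_⟩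
  obtain ⟨L, b, hb, hab⟩ := h.2.2 (Nat.succ_pos n)
  exact ⟨L, b, X.mono hn hb, fun i => UnrPoly.lpow_mono (Nat.le_succ n) (hab i)⟩

theorem isCoord_zero (n : ℕ) : X.IsCoord n 0 0 := by
  refine ⟨X.J1.zero_mem, fun _ => zero_mem_nonunits, fun hn => ?_⟩
  obtain ⟨L, hL⟩ := X.zero n hn
  exact ⟨L, 0, hL, fun i => by simp only [Pi.zero_apply, sub_self]; exact UnrPoly.zero_mem_lpow _⟩

theorem exists_rep_level {z : Jb} (hz : z ∈ X.J1) :
    ∃ E : IntermediateField ℚ Qb, FiniteDimensional ℚ E ∧ ∀ n, ∃ a, X.IsCoord n z a ∧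
      ∀ σ ∈ A.inertiaSubgroupIn ℚ, (∀ x ∈ E, σ x = x) → ∀ i, σ (a i) = a i := by
  obtain ⟨L, hL⟩ := X.exists_rep hz
  obtain ⟨E, hE, hfix⟩ := X.fixed L
  refine ⟨E, hE, fun n => ?_⟩
  rcases Nat.eq_zero_or_pos n with hn | hn
  · subst hn
    exact ⟨0, ⟨hz, fun _ => zero_mem_nonunits, fun h => absurd h (lt_irrefl 0)⟩,
      fun σ _ _ i => by simp⟩
  · obtain ⟨a, ha⟩ := hL n hn
    exact ⟨a, X.isCoord_of_R ha, fun σ hσ hσE i => hfix ha σ hσ hσE i⟩

theorem equivariant_inertia (hJ : ∀ σ ∈ A.decompositionSubgroup ℚ, ∀ z ∈ X.J1, actJ σ z ∈ X.J1)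
    {σ : GQ} (hσ : σ ∈ A.inertiaSubgroupIn ℚ) {n : ℕ} {z : Jb} {a : Fin X.g → Qb}
    (h : X.IsCoord n z a) : X.IsCoord n (actJ σ z) (fun i => σ (a i)) := by
  have hσD := mem_inertia_le hσ
  refine ⟨hJ σ hσD z h.1, fun i => apply_mem_nonunits hσD (h.2.1 i), fun hn => ?_⟩
  obtain ⟨L, b, hb, hab⟩ := h.2.2 hn
  obtain ⟨L', hL'⟩ := X.inertia σ hσ hb
  refine ⟨L', _, hL', fun i => ?_⟩
  have := apply_mem_lpow hσD (hab i)
  rwa [map_sub] at this

theorem equivariant (hA : A.LiesOverPrime ℓ)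
    (hJ : ∀ σ ∈ A.decompositionSubgroup ℚ, ∀ z ∈ X.J1, actJ σ z ∈ X.J1)
    {σ : GQ} (hσ : σ ∈ A.decompositionSubgroup ℚ) (n e : ℕ) (he : 0 < e) :
    ∃ Ψ : Fin X.g → MvPolynomial (Fin X.g) Qb, (∀ i, UnrCoeffs A (Ψ i)) ∧
      ∀ {z a}, X.IsCoord n z a → (∀ i, a i ^ e ∈ lpow A ℓ 1) →
        X.IsCoord n (actJ σ z) (fun i => σ (MvPolynomial.aeval a (Ψ i))) := by
  rcases Nat.eq_zero_or_pos n with hn | hn
  · subst hn
    refine ⟨fun _ => 0, fun _ => UnrPoly.unrCoeffs_zero, fun {z a} h _ => ?_⟩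
    refine ⟨hJ σ hσ z h.1, fun i => ?_, fun h0 => absurd h0 (lt_irrefl 0)⟩
    simp only [map_zero]
    exact zero_mem_nonunits
  obtain ⟨Ψ, hΨ, hR⟩ := X.twist σ hσ n e hn he
  refine ⟨Ψ, hΨ, fun {z a} h hae => ?_⟩
  obtain ⟨L, b, hb, hab⟩ := h.2.2 hn
  have hbe : ∀ i, b i ^ e ∈ lpow A ℓ 1 := fun i =>
    pow_mem_lpow_of_congr hn (X.mem_A h i) (X.R_mem_A hb i) (hab i) (hae i)
  obtain ⟨L', hL'⟩ := hR hb hbe
  have hcong : ∀ i, σ (MvPolynomial.aeval a (Ψ i)) - σ (MvPolynomial.aeval b (Ψ i))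
      ∈ lpow A ℓ n := by
    intro i
    have := apply_mem_lpow hσ (UnrPoly.aeval_sub_aeval_mem_lpow (ℓ := ℓ) (n := n)
      (fun m => UnrPoly.UnrCoeffs.coeff_mem (hΨ i) m) (X.mem_A h) (X.R_mem_A hb) hab)
    rwa [map_sub] at this
  exact ⟨X.mem_J1 hL', fun i => nonunit_of_congr hA hn (X.nonunit hL' i) (hcong i),
    fun _ => ⟨L', _, hL', hcong⟩⟩

theorem isCoord_law (hA : A.LiesOverPrime ℓ) (n e : ℕ) (he : 0 < e) :
    ∃ F : Fin X.g → MvPolynomial (Fin X.g ⊕ Fin X.g) Qb, (∀ i, UnrCoeffs A (F i)) ∧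
      ∀ {z z' a a'}, X.IsCoord n z a → X.IsCoord n z' a' →
        (∀ i, a i ^ e ∈ lpow A ℓ 1) → (∀ i, a' i ^ e ∈ lpow A ℓ 1) →
        X.IsCoord n (z + z') (fun i => MvPolynomial.aeval (Sum.elim a a') (F i)) := by
  rcases Nat.eq_zero_or_pos n with hn | hn
  · subst hn
    refine ⟨fun _ => 0, fun _ => UnrPoly.unrCoeffs_zero, fun {z z' a a'} h h' _ _ => ?_⟩
    refine ⟨X.J1.add_mem h.1 h'.1, fun i => ?_, fun h0 => absurd h0 (lt_irrefl 0)⟩
    simp only [map_zero]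
    exact zero_mem_nonunits
  obtain ⟨F, hF, hR⟩ := X.law n e hn he
  refine ⟨F, hF, fun {z z' a a'} h h' hae hae' => ?_⟩
  obtain ⟨L₁, b, hb, hab⟩ := h.2.2 hn
  obtain ⟨L₂, b', hb', hab'⟩ := h'.2.2 hn
  obtain ⟨L, h1, h2⟩ := X.exists_common hb hb'
  have hbe : ∀ i, b i ^ e ∈ lpow A ℓ 1 := fun i =>
    pow_mem_lpow_of_congr hn (X.mem_A h i) (X.R_mem_A hb i) (hab i) (hae i)
  have hbe' : ∀ i, b' i ^ e ∈ lpow A ℓ 1 := fun i =>
    pow_mem_lpow_of_congr hn (X.mem_A h' i) (X.R_mem_A hb' i) (hab' i) (hae' i)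
  have hL := hR h1 h2 hbe hbe'
  have hcong : ∀ i, MvPolynomial.aeval (Sum.elim a a') (F i)
      - MvPolynomial.aeval (Sum.elim b b') (F i) ∈ lpow A ℓ n := by
    intro i
    refine UnrPoly.aeval_sub_aeval_mem_lpow (fun m => UnrPoly.UnrCoeffs.coeff_mem (hF i) m)
      ?_ ?_ ?_
    · rintro (k | k)
      · exact X.mem_A h k
      · exact X.mem_A h' k
    · rintro (k | k)
      · exact X.R_mem_A hb k
      · exact X.R_mem_A hb' k
    · rintro (k | k)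
      · exact hab k
      · exact hab' k
  exact ⟨X.mem_J1 hL, fun i => nonunit_of_congr hA hn (X.nonunit hL i) (hcong i),
    fun _ => ⟨L, _, hL, hcong⟩⟩

/-- **The contract `LevelCoordSystem` from level-wise representatives.** -/
def toLevelCoordSystem (hA : A.LiesOverPrime ℓ) (U : AddSubgroup Jb)
    (J1_stable : ∀ σ ∈ A.decompositionSubgroup ℚ, ∀ z ∈ X.J1, actJ σ z ∈ X.J1)
    (separated : ∀ {z}, z ∈ X.J1 →
      (∀ n, 0 < n → ∃ L a, X.R L n z a ∧ ∀ i, a i ∈ lpow A ℓ n) → z = 0)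
    (inertia_sub_mem : ∀ σ ∈ A.inertiaSubgroupIn ℚ, ∀ y : Jb, actJ σ y - y ∈ X.J1)
    (U_fixed : ∀ σ ∈ A.inertiaSubgroupIn ℚ, ∀ z ∈ U, actJ σ z = z)
    (U_stable : ∀ σ ∈ A.decompositionSubgroup ℚ, ∀ z ∈ U, actJ σ z ∈ U)
    (exists_lift : ∀ y : Jb, ∃ x ∈ U, y - x ∈ X.J1) : LevelCoordSystem ℓ A Jb actJ where
  g := X.g
  J1 := X.J1
  U := U
  IsCoord := X.IsCoord
  mem_J1 := fun h => h.1
  nonunit := fun h => h.2.1
  exists_rep_level := fun hz => X.exists_rep_level hz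
  congr := fun h h' => X.isCoord_congr h h'
  of_congr := fun h hn hc => X.isCoord_of_congr h hn hc
  J1_stable := J1_stable
  equivariant := fun σ hσ n e he => X.equivariant hA J1_stable hσ n e he
  equivariant_inertia := fun σ hσ _ _ _ h => X.equivariant_inertia J1_stable hσ h
  mono := fun h => X.isCoord_mono h
  zero := X.isCoord_zero
  law := fun n e he => X.isCoord_law hA n e he
  separated := by
    intro z hz h
    refine separated hz fun n hn => ?_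
    obtain ⟨L, b, hb, hab⟩ := (h n).2.2 hn
    refine ⟨L, b, hb, fun i => ?_⟩
    have := UnrPoly.neg_mem_lpow (hab i)
    simpa using this
  inertia_sub_mem := inertia_sub_mem
  U_fixed := U_fixed
  U_stable := U_stable
  exists_lift := exists_lift

end LevelReps

end Fermat.Agent.S19.Coord.OfLevels
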