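/-
S19 / Čech-units route, leaf **[SEPW]** of the DAG v1, part 5 (helper5): the separation hypothesis
of `LevelReps.toLevelCoordSystem` (`Coord/OfLevels.lean`, helper3) from **separation at ONE level
per class**.

`LevelReps.separated_of_one_level` : suppose that every `z ∈ J1` has a level `L₀` and a bound `N₀`
such that for all `n ≥ N₀`, `n > 0`:
* `z` has a representative at `(L₀, n)`, and
* a representative of `z` at `(L₀, n)` which is `≡ 0` modulo `ℓⁿ A` forces `z = 0`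
  (`Cech/SepWireLines.eq_zero_of_repQb`: the level `L₀` carries a line `L` of `z`, `n₀` bounds the
  `ϖ`-power torsion of `H¹(L)`, and `N₀` is chosen with `e_{L₀}·N₀ > n₀`).
Then `(∀ n > 0, ∃ L a, R L n z a ∧ a ≡ 0 mod ℓⁿ A) → z = 0` — the witnesses `(L, a)` may live at
levels depending on `n`: they are compared with a representative at `L₀` on a common upper level
(`directed`, `lift`, `unique`).
-/
import Fermat.Agent.S19.Coord.OfLevels

set_option autoImplicit false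

namespace Fermat.Agent.S19.Coord.SepLevels

open Fermat.Agent.S19.Abs Fermat.Agent.S19.Coord Fermat.Agent.S19.Order
open Fermat.Agent.S19.Coord.OfLevels

variable {ℓ : ℕ} {A : ValuationSubring Qb} {Jb : Type} [AddCommGroup Jb] {actJ : GQ → Jb → Jb}

/-- a representative at one level which is congruent to `0` at another level -/
theorem mem_lpow_of_R (X : LevelReps ℓ A Jb actJ) {L L₀ : X.Lv} {n : ℕ} {z : Jb}
    {a a₀ : Fin X.g → Qb} (h : X.R L n z a) (h₀ : X.R L₀ n z a₀) (ha : ∀ i, a i ∈ lpow A ℓ n)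
    (i : Fin X.g) : a₀ i ∈ lpow A ℓ n := by
  obtain ⟨L', h1, h2⟩ := X.exists_common h₀ h
  have h3 := X.unique h1 h2 i
  have e : a₀ i = (a₀ i - a i) + a i := by ring
  rw [e]
  exact UnrPoly.add_mem_lpow h3 (ha i)

/-- **(C6) from separation at one level per class.** -/
theorem separated_of_one_level (X : LevelReps ℓ A Jb actJ)
    (hone : ∀ {z}, z ∈ X.J1 → ∃ (L₀ : X.Lv) (N₀ : ℕ), ∀ n, N₀ ≤ n → 0 < n →
      (∃ a₀, X.R L₀ n z a₀) ∧
        ∀ a₀, X.R L₀ n z a₀ → (∀ i, a₀ i ∈ lpow A ℓ n) → z = 0)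
    {z : Jb} (hz : z ∈ X.J1)
    (h : ∀ n, 0 < n → ∃ L a, X.R L n z a ∧ ∀ i, a i ∈ lpow A ℓ n) : z = 0 := by
  obtain ⟨L₀, N₀, hL₀⟩ := hone hz
  have hn : 0 < max N₀ 1 := lt_of_lt_of_le Nat.one_pos (le_max_right _ _)
  obtain ⟨⟨a₀, ha₀⟩, hsep⟩ := hL₀ (max N₀ 1) (le_max_left _ _) hn
  obtain ⟨L, a, hR, ha⟩ := h (max N₀ 1) hn
  exact hsep a₀ ha₀ (mem_lpow_of_R X hR ha₀ ha)

/-- The same, with the level `L₀` allowed to be enlarged: it suffices to have the separation at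
ONE level above any given level (useful when the level of the line bundle and the level given by
`exists_rep` differ). -/
theorem separated_of_one_level' (X : LevelReps ℓ A Jb actJ)
    (hone : ∀ {z}, z ∈ X.J1 → ∃ (L₀ : X.Lv) (N₀ : ℕ), ∀ n, N₀ ≤ n → 0 < n →
      ∀ a₀, X.R L₀ n z a₀ → (∀ i, a₀ i ∈ lpow A ℓ n) → z = 0)
    (hrep : ∀ {z}, z ∈ X.J1 → ∀ L₀ : X.Lv, ∀ n, 0 < n → ∃ a₀, X.R L₀ n z a₀)
    {z : Jb} (hz : z ∈ X.J1)
    (h : ∀ n, 0 < n → ∃ L a, X.R L n z a ∧ ∀ i, a i ∈ lpow A ℓ n) : z = 0 := by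
  refine separated_of_one_level X (fun {z} hz => ?_) hz h
  obtain ⟨L₀, N₀, hL₀⟩ := hone hz
  exact ⟨L₀, N₀, fun n hN hn => ⟨hrep hz L₀ n hn, hL₀ n hN hn⟩⟩

end Fermat.Agent.S19.Coord.SepLevels
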